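import Mathlib.NumberTheory.ModularForms.CongruenceSubgroups

set_option autoImplicit false
open scoped MatrixGroups

namespace Fermat.Agent.S07_helper93

/-- First column mod 2. -/
def colMap (g : SL(2, ℤ)) : ZMod 2 × ZMod 2 := ((g 0 0 : ℤ), (g 1 0 : ℤ))

theorem rel_of_colMap_eq (g g' : SL(2, ℤ)) (h : colMap g = colMap g') :
    g⁻¹ * g' ∈ CongruenceSubgroup.Gamma0 2 := by
  rw [CongruenceSubgroup.Gamma0_mem]
  simp only [colMap, Prod.mk.injEq] at h
  obtain ⟨h0, h1⟩ := h
  rw [Matrix.SpecialLinearGroup.coe_mul, Matrix.SpecialLinearGroup.coe_inv,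
    Matrix.mul_apply, Fin.sum_univ_two, Matrix.adjugate_fin_two]
  simp only [Matrix.of_apply, Matrix.cons_val_one, Matrix.cons_val_zero]
  push_cast
  rw [← h0, ← h1]
  ring

theorem Gamma0_two_index_le : (CongruenceSubgroup.Gamma0 2).index ≤ 4 := by
  rw [Subgroup.index_eq_card]
  have hinj : Function.Injective
      (fun q : SL(2, ℤ) ⧸ CongruenceSubgroup.Gamma0 2 => colMap q.out) := by
    intro q q' h
    have := rel_of_colMap_eq _ _ h
    rw [← QuotientGroup.eq] at this
    simpa using this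
  calc Nat.card (SL(2, ℤ) ⧸ CongruenceSubgroup.Gamma0 2)
      ≤ Nat.card (ZMod 2 × ZMod 2) := Nat.card_le_card_of_injective _ hinj
    _ = 4 := by simp

end Fermat.Agent.S07_helper93
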